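/-
S55 / TOP LEVEL INTERFACES (captain).

* `IsCoef S p N`   : `N` is a finite `F_p[G_Q]`-module, smooth for `lvlS S`.
* `Contract S p`   : the formal contract (RE), (LD), (PT), (C4) of the blueprint
                     (input of THEOREM F1, output of THEOREM F2).
* `ArithInput S p` : the arithmetic input (T1)-(T5) about the modules `μ_F = IndMod (GQ ⧸ U) (Mu p)`
                     (input of THEOREM F2, output of the arithmetic blocks).
Only definitions.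
-/
import Fermat.Agent.S55.Arith.Sha
import Fermat.Agent.S55.Coh.IndMaps
import Fermat.Agent.S55.Coh.LES

set_option autoImplicit false

namespace Fermat.Agent.S55

/-- `N` is finite, killed by `p` and smooth for the level system `lvlS S`. -/
structure IsCoef (S : Finset Nat.Primes) (p : ℕ) (N : Type) [AddCommGroup N]
    [DistribMulAction GQ N] : Prop where
  finite : Finite N
  ptors : ∀ x : N, p • x = 0
  smooth : Smooth (lvlS S) N

/-- Local cohomology `H^n_q(A)`. -/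
abbrev Hloc (q : Nat.Primes) (A : Type) [AddCommGroup A] [DistribMulAction GQ A] (n : ℕ) : Type :=
  Hsm (lvlLoc q) (ResMod (ιv q) A) n

/-- Local equivariant maps `Hom_{G_q}(N, A)`. -/
abbrev HomLoc (q : Nat.Primes) (N A : Type) [AddCommGroup N] [DistribMulAction GQ N]
    [AddCommGroup A] [DistribMulAction GQ A] : Type :=
  ResMod (ιv q) N →+[Gv q] ResMod (ιv q) A

/-- `U` acts trivially on `A`. -/
def ActsTrivially (U : Subgroup GQ) (A : Type) [AddCommGroup A] [DistribMulAction GQ A] : Prop :=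
  ∀ u ∈ U, ∀ a : A, u • a = a

/-- The projection `GQ ⧸ U' → GQ ⧸ U` for `U' ≤ U`, as an equivariant map. -/
noncomputable def quotProj {U' U : Subgroup GQ} (h : U' ≤ U) : (GQ ⧸ U') →[GQ] (GQ ⧸ U) where
  toFun := Quotient.map' id fun a b hab => by
    rw [QuotientGroup.leftRel_apply] at hab ⊢
    exact h hab
  map_smul' g x := by
    induction x using Quotient.inductionOn'
    rfl

/-- THE FORMAL CONTRACT. -/
structure Contract (S : Finset Nat.Primes) (p : ℕ) where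
  /-- the local invariant maps on `H^2_q(μ_p)` -/
  t : ∀ q : Nat.Primes, Hloc q (Mu p) 2 →+ ZMod p
  /-- `μ_p` is a coefficient module -/
  coefMu : IsCoef S p (Mu p)
  /-- (RE) `H^2_S` preserves surjections -/
  RE : ∀ (N N'' : Type) [AddCommGroup N] [DistribMulAction GQ N] [AddCommGroup N'']
    [DistribMulAction GQ N''], IsCoef S p N → IsCoef S p N'' → ∀ φ : N →+[GQ] N'',
    Function.Surjective φ → Function.Surjective (Hsm.map (𝓝 := lvlS S) φ 2)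
  /-- (LD), left nondegeneracy -/
  LD₁ : ∀ (N : Type) [AddCommGroup N] [DistribMulAction GQ N], IsCoef S p N → ∀ q ∈ S,
    ∀ x : Hloc q N 2, (∀ f : HomLoc q N (Mu p), t q (Hsm.map f 2 x) = 0) → x = 0
  /-- (LD), right nondegeneracy -/
  LD₂ : ∀ (N : Type) [AddCommGroup N] [DistribMulAction GQ N], IsCoef S p N → ∀ q ∈ S,
    ∀ f : HomLoc q N (Mu p), (∀ x : Hloc q N 2, t q (Hsm.map f 2 x) = 0) → ∀ n, f n = 0
  /-- (PT), the image is contained in the annihilator (reciprocity) -/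
  PT₀ : ∀ (N : Type) [AddCommGroup N] [DistribMulAction GQ N], IsCoef S p N →
    ∀ (x : Hsm (lvlS S) N 2) (f : N →+[GQ] Mu p),
      ∑ q : ↥S, t q.1 (Hsm.map (ResMod.map (ιv q.1) f) 2 (locS S N q.1 2 x)) = 0
  /-- (PT), the annihilator is contained in the image -/
  PT₁ : ∀ (N : Type) [AddCommGroup N] [DistribMulAction GQ N], IsCoef S p N →
    ∀ y : (∀ q : ↥S, Hloc q.1 N 2),
      (∀ f : N →+[GQ] Mu p, ∑ q : ↥S, t q.1 (Hsm.map (ResMod.map (ιv q.1) f) 2 (y q)) = 0) →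
      ∃ x : Hsm (lvlS S) N 2, ∀ q : ↥S, locS S N q.1 2 x = y q
  /-- (C4) `Sha^2` is killed by the fibre sum from a small enough level -/
  C4 : ∀ (N : Type) [AddCommGroup N] [DistribMulAction GQ N], IsCoef S p N →
    ∀ U ∈ (lvlS S).carrier, ∃ U' ∈ (lvlS S).carrier, U' ≤ U ∧ ∃ _ : Finite (GQ ⧸ U'),
      ∀ x ∈ Sha S (IndMod (GQ ⧸ U') N) 2, Hsm.map (IndMod.sum (GQ ⧸ U') N) 2 x = 0

/-- The functional `t_{q,U} = t_q ∘ (sum)_*` on `H^2_q(μ_F)`, `F` the fixed field of `U`. -/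
noncomputable def tU {p : ℕ} (t : ∀ q : Nat.Primes, Hloc q (Mu p) 2 →+ ZMod p)
    (U : Subgroup GQ) [Finite (GQ ⧸ U)] (q : Nat.Primes) :
    Hloc q (IndMod (GQ ⧸ U) (Mu p)) 2 →+ ZMod p :=
  (t q).comp (Hsm.map (ResMod.map (ιv q) (IndMod.sum (GQ ⧸ U) (Mu p))) 2)

/-- THE ARITHMETIC INPUT: statements about `μ_F = IndMod (GQ ⧸ U) (Mu p)` only, where `U` is an
open subgroup (for `lvlS S`) acting trivially on `μ_p` (i.e. `F` is an `S`-field containing
`μ_p`). -/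
structure ArithInput (S : Finset Nat.Primes) (p : ℕ) where
  t : ∀ q : Nat.Primes, Hloc q (Mu p) 2 →+ ZMod p
  coefMu : IsCoef S p (Mu p)
  /-- `μ_p` has order `p` -/
  cardMu : Nat.card (Mu p) = p
  /-- (T1) `H^3_S(μ_F) = 0` -/
  T1 : ∀ U : Subgroup GQ, (lvlS S).IsOpen U → ActsTrivially U (Mu p) →
    ∀ x : Hsm (lvlS S) (IndMod (GQ ⧸ U) (Mu p)) 3, x = 0
  /-- (T2) `H^3_q(μ_F) = 0` -/
  T2 : ∀ U : Subgroup GQ, (lvlS S).IsOpen U → ActsTrivially U (Mu p) → ∀ q ∈ S,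
    ∀ x : Hloc q (IndMod (GQ ⧸ U) (Mu p)) 3, x = 0
  /-- (T3) local duality for `μ_F`, left nondegeneracy -/
  T3₁ : ∀ U ∈ (lvlS S).carrier, ActsTrivially U (Mu p) → ∀ q ∈ S,
    ∀ x : Hloc q (IndMod (GQ ⧸ U) (Mu p)) 2,
      (∀ f : HomLoc q (IndMod (GQ ⧸ U) (Mu p)) (Mu p), t q (Hsm.map f 2 x) = 0) → x = 0
  /-- (T3) local duality for `μ_F`, right nondegeneracy -/
  T3₂ : ∀ U ∈ (lvlS S).carrier, ActsTrivially U (Mu p) → ∀ q ∈ S,
    ∀ f : HomLoc q (IndMod (GQ ⧸ U) (Mu p)) (Mu p),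
      (∀ x : Hloc q (IndMod (GQ ⧸ U) (Mu p)) 2, t q (Hsm.map f 2 x) = 0) → ∀ n, f n = 0
  /-- (T4) reciprocity -/
  T4₀ : ∀ U ∈ (lvlS S).carrier, ActsTrivially U (Mu p) → ∀ _ : Finite (GQ ⧸ U),
    ∀ x : Hsm (lvlS S) (IndMod (GQ ⧸ U) (Mu p)) 2,
      ∑ q : ↥S, tU t U q.1 (locS S _ q.1 2 x) = 0
  /-- (T4) existence of global classes -/
  T4₁ : ∀ U ∈ (lvlS S).carrier, ActsTrivially U (Mu p) → ∀ _ : Finite (GQ ⧸ U),
    ∀ y : (∀ q : ↥S, Hloc q.1 (IndMod (GQ ⧸ U) (Mu p)) 2), ∑ q : ↥S, tU t U q.1 (y q) = 0 →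
      ∃ x : Hsm (lvlS S) (IndMod (GQ ⧸ U) (Mu p)) 2, ∀ q : ↥S, locS S _ q.1 2 x = y q
  /-- (T5) corestriction from a small enough level kills `Sha^2_S(μ_F)` -/
  T5 : ∀ U ∈ (lvlS S).carrier, ActsTrivially U (Mu p) →
    ∃ U' ∈ (lvlS S).carrier, ∃ h : U' ≤ U, ∃ _ : Finite (GQ ⧸ U'),
      ∀ x ∈ Sha S (IndMod (GQ ⧸ U') (Mu p)) 2,
        Hsm.map (IndMod.push (Mu p) (quotProj h)) 2 x = 0

end Fermat.Agent.S55
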