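/-
S55 / FORMAL (helper176): the dual modules `HomMod N A`.
Precomposition, exactness of the dual of a short exact sequence of `F_p`-modules, smoothness and
finiteness, and the dictionary between classes of degree zero and bundled equivariant maps.
-/
import Fermat.Agent.S55.Coh.H0
import Fermat.Agent.S55.Coh.IndMaps
import Fermat.Agent.S55.Coh.LES
import Fermat.Agent.S55.Coh.Res

set_option autoImplicit false

namespace Fermat.Agent.S55.Formal

variable {G : Type} [Group G]
variable {N N' N'' : Type} [AddCommGroup N] [DistribMulAction G N] [AddCommGroup N']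
  [DistribMulAction G N'] [AddCommGroup N''] [DistribMulAction G N'']

section precomp

variable (A : Type) [AddCommGroup A] [DistribMulAction G A]

/-- Precomposition with an equivariant map. -/
def precomp (φ : N →+[G] N') : HomMod N' A →+[G] HomMod N A where
  toFun u := HomMod.of ((HomMod.toHom u).comp (φ : N →+ N'))
  map_smul' g u := by
    ext n
    change g • u (g⁻¹ • φ n) = g • u (φ (g⁻¹ • n))
    rw [map_smul φ]
  map_zero' := rfl
  map_add' _ _ := rfl

@[simp] theorem precomp_apply (φ : N →+[G] N') (u : HomMod N' A) (n : N) :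
    precomp A φ u n = u (φ n) := rfl

end precomp

/-- An injective additive map between groups killed by `p` has an additive left inverse. -/
theorem exists_leftInverse (p : ℕ) [Fact p.Prime] {Q F : Type} [AddCommGroup Q] [AddCommGroup F]
    (hQ : ∀ x : Q, p • x = 0) (hF : ∀ x : F, p • x = 0) (j : Q →+ F)
    (hj : Function.Injective j) : ∃ r : F →+ Q, ∀ x, r (j x) = x := by
  let _ : Module (ZMod p) Q := AddCommGroup.zmodModule hQ
  let _ : Module (ZMod p) F := AddCommGroup.zmodModule hF
  obtain ⟨r, hr⟩ := (j.toZModLinearMap p).exists_leftInverse_of_injective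
    (LinearMap.ker_eq_bot.2 hj)
  exact ⟨r.toAddMonoidHom, fun x => LinearMap.congr_fun hr x⟩

/-- The dual of a short exact sequence of modules killed by `p` is exact. -/
theorem shortExact_dual (p : ℕ) [Fact p.Prime] (A : Type) [AddCommGroup A] [DistribMulAction G A]
    {j : N →+[G] N'} {π : N' →+[G] N''} (h : ShortExact j π)
    (hQ : ∀ x : N, p • x = 0) (hF : ∀ x : N', p • x = 0) :
    ShortExact (precomp A π) (precomp A j) where
  inj := by
    intro u u' huu
    ext m
    obtain ⟨x, rfl⟩ := h.surj m
    exact DFunLike.congr_fun huu x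
  exact := by
    intro u
    constructor
    · intro hu
      have hker : (π : N' →+ N'').ker ≤ (HomMod.toHom u).ker := by
        intro x hx
        obtain ⟨y, rfl⟩ := (h.exact x).1 hx
        exact DFunLike.congr_fun hu y
      refine ⟨HomMod.of ((π : N' →+ N'').liftOfSurjective h.surj ⟨HomMod.toHom u, hker⟩), ?_⟩
      ext x
      exact AddMonoidHom.liftOfRightInverse_comp_apply (π : N' →+ N'') _
        (Function.rightInverse_surjInv h.surj) ⟨HomMod.toHom u, hker⟩ x
    · rintro ⟨v, rfl⟩
      ext y
      change v (π (j y)) = 0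
      rw [h.comp_eq_zero, map_zero]
  surj := by
    intro w
    obtain ⟨r, hr⟩ := exists_leftInverse p hQ hF (j : N →+ N') h.inj
    refine ⟨HomMod.of ((HomMod.toHom w).comp r), ?_⟩
    ext y
    change w (r (j y)) = w y
    exact congrArg w (hr y)

section basic

variable {A : Type} [AddCommGroup A] [DistribMulAction G A]

/-- `Hom(N, A)` is smooth if `N` is finite and smooth and `A` is smooth. -/
theorem smooth_homMod (𝓝 : LevelSys G) [Finite N] [Smooth 𝓝 N] [Smooth 𝓝 A] :
    Smooth 𝓝 (HomMod N A) where
  exists_fix u := by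
    obtain ⟨U, hU, h⟩ := Smooth.exists_fix_of_finite (𝓝 := 𝓝) (Set.finite_univ (α := N))
    obtain ⟨U', hU', h'⟩ := Smooth.exists_fix_of_finite (𝓝 := 𝓝) (Set.finite_range u)
    obtain ⟨U'', hU'', hle⟩ := 𝓝.directed U hU U' hU'
    refine ⟨U'', hU'', fun g hg => ?_⟩
    ext n
    rw [HomMod.smul_apply, h n (Set.mem_univ n) g⁻¹ (U.inv_mem (hle hg).1),
      h' _ ⟨n, rfl⟩ g (hle hg).2]

omit [DistribMulAction G N] [DistribMulAction G A] in
theorem finite_homMod [Finite N] [Finite A] : Finite (HomMod N A) :=
  Finite.of_injective (fun u : HomMod N A => (u : N → A)) DFunLike.coe_injective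

omit [DistribMulAction G N] [DistribMulAction G A] in
theorem nsmul_homMod (p : ℕ) (hA : ∀ a : A, p • a = 0) (u : HomMod N A) : p • u = 0 := by
  ext n
  exact hA (u n)

/-- The equivariant map attached to an invariant element of `Hom(N, A)`. -/
def homOfInv (u : inv0 G (HomMod N A)) : N →+[G] A where
  toFun n := (u : HomMod N A) n
  map_smul' g n := by
    have h1 : (g • (u : HomMod N A)) (g • n) = (u : HomMod N A) (g • n) := by rw [u.2 g]
    rw [HomMod.smul_apply, inv_smul_smul] at h1
    exact h1.symm
  map_zero' := map_zero (u : HomMod N A)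
  map_add' := map_add (u : HomMod N A)

@[simp] theorem homOfInv_apply (u : inv0 G (HomMod N A)) (n : N) :
    homOfInv u n = (u : HomMod N A) n := rfl

/-- The invariant element of `Hom(N, A)` attached to an equivariant map. -/
def invOfHom (φ : N →+[G] A) : inv0 G (HomMod N A) :=
  ⟨HomMod.of (φ : N →+ A), fun g => by
    ext n
    change g • φ (g⁻¹ • n) = φ n
    rw [map_smul, smul_inv_smul]⟩

@[simp] theorem invOfHom_apply (φ : N →+[G] A) (n : N) :
    (invOfHom φ : HomMod N A) n = φ n := rfl

end basic

/-! ### Classes of degree zero, global form -/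

section global

variable {𝓝 : LevelSys G} {A : Type} [AddCommGroup A] [DistribMulAction G A]

/-- The equivariant map attached to a class in `H^0(Hom(N, A))`. -/
def homOfH0 (z : Hsm 𝓝 (HomMod N A) 0) : N →+[G] A := homOfInv (Hsm.H0equiv z)

theorem homOfH0_add (z z' : Hsm 𝓝 (HomMod N A) 0) (n : N) :
    homOfH0 (z + z') n = homOfH0 z n + homOfH0 z' n := by
  unfold homOfH0
  rw [map_add]
  rfl

theorem homOfH0_zero (n : N) : homOfH0 (0 : Hsm 𝓝 (HomMod N A) 0) n = 0 := by
  unfold homOfH0
  rw [map_zero]
  rfl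

theorem homOfH0_surjective (φ : N →+[G] A) :
    ∃ z : Hsm 𝓝 (HomMod N A) 0, ∀ n, homOfH0 z n = φ n := by
  refine ⟨Hsm.H0equiv.symm (invOfHom φ), fun n => ?_⟩
  unfold homOfH0
  rw [AddEquiv.apply_symm_apply]
  rfl

theorem homOfH0_map (φ : N →+[G] N') (z : Hsm 𝓝 (HomMod N' A) 0) (n : N) :
    homOfH0 (Hsm.map (precomp A φ) 0 z) n = homOfH0 z (φ n) := by
  unfold homOfH0
  rw [Hsm.H0equiv_map]
  rfl

end global

/-! ### Classes of degree zero, local form -/

section loc

variable {H : Type} [Group H] (f : H →* G) {𝓝H : LevelSys H}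
variable {A : Type} [AddCommGroup A] [DistribMulAction G A]

/-- The `H`-equivariant map attached to an `H`-invariant element of `Hom(N, A)`. -/
def resHomOfInv (u : inv0 H (ResMod f (HomMod N A))) : ResMod f N →+[H] ResMod f A where
  toFun n := ResMod.toRes f
    (((ResMod.toRes f).symm (u : ResMod f (HomMod N A)) : HomMod N A) ((ResMod.toRes f).symm n))
  map_smul' h n := by
    have h0 : h • (u : ResMod f (HomMod N A)) = u := u.2 h
    set v : HomMod N A := (ResMod.toRes f).symm (u : ResMod f (HomMod N A)) with hv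
    have h1 : f h • v = v := by
      have h2 := ResMod.smul_def' f h (u : ResMod f (HomMod N A))
      rw [h0] at h2
      have h3 := congrArg (ResMod.toRes f).symm h2
      rw [AddEquiv.symm_apply_apply] at h3
      exact h3.symm
    set m : N := (ResMod.toRes f).symm n with hm
    have h4 : (ResMod.toRes f).symm (h • n) = f h • m := by
      rw [ResMod.smul_def', AddEquiv.symm_apply_apply]
    have h5 : (f h • v) (f h • m) = v (f h • m) := by rw [h1]
    rw [HomMod.smul_apply, inv_smul_smul] at h5
    change ResMod.toRes f (v ((ResMod.toRes f).symm (h • n))) = h • ResMod.toRes f (v m)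
    rw [h4, ← h5, ResMod.smul_def]
  map_zero' := by simp
  map_add' a b := by simp

theorem resHomOfInv_apply (u : inv0 H (ResMod f (HomMod N A))) (n : N) :
    resHomOfInv f u (ResMod.toRes f n) = ResMod.toRes f
      (((ResMod.toRes f).symm (u : ResMod f (HomMod N A)) : HomMod N A) n) := rfl

/-- The `H`-invariant element of `Hom(N, A)` attached to an `H`-equivariant map. -/
def resInvOfHom (φ : ResMod f N →+[H] ResMod f A) : inv0 H (ResMod f (HomMod N A)) :=
  ⟨ResMod.toRes f (HomMod.of
    { toFun := fun n => (ResMod.toRes f).symm (φ (ResMod.toRes f n))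
      map_zero' := by simp
      map_add' := fun a b => by simp }), fun h => by
    rw [ResMod.smul_def]
    congr 1
    ext n
    change f h • (ResMod.toRes f).symm (φ (ResMod.toRes f ((f h)⁻¹ • n))) =
      (ResMod.toRes f).symm (φ (ResMod.toRes f n))
    have h1 : ResMod.toRes f ((f h)⁻¹ • n) = h⁻¹ • ResMod.toRes f n := by
      rw [ResMod.smul_def, map_inv]
    rw [h1, map_smul]
    have h2 : ∀ a : ResMod f A, f h • (ResMod.toRes f).symm (h⁻¹ • a) = (ResMod.toRes f).symm a := by
      intro a
      rw [ResMod.smul_def', AddEquiv.symm_apply_apply, map_inv, smul_inv_smul]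
    exact h2 _⟩

theorem resHomOfInv_resInvOfHom (φ : ResMod f N →+[H] ResMod f A) (n : ResMod f N) :
    resHomOfInv f (resInvOfHom f φ) n = φ n := rfl

/-- The `H`-equivariant map attached to a class in `H^0(H, Hom(N, A))`. -/
def resHomOfH0 (y : Hsm 𝓝H (ResMod f (HomMod N A)) 0) : ResMod f N →+[H] ResMod f A :=
  resHomOfInv f (Hsm.H0equiv y)

theorem resHomOfH0_add (y y' : Hsm 𝓝H (ResMod f (HomMod N A)) 0) (n : ResMod f N) :
    resHomOfH0 f (y + y') n = resHomOfH0 f y n + resHomOfH0 f y' n := by
  unfold resHomOfH0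
  rw [map_add]
  rfl

theorem resHomOfH0_zero (n : ResMod f N) :
    resHomOfH0 f (0 : Hsm 𝓝H (ResMod f (HomMod N A)) 0) n = 0 := by
  unfold resHomOfH0
  rw [map_zero]
  rfl

theorem resHomOfH0_surjective (φ : ResMod f N →+[H] ResMod f A) :
    ∃ y : Hsm 𝓝H (ResMod f (HomMod N A)) 0, ∀ n, resHomOfH0 f y n = φ n := by
  refine ⟨Hsm.H0equiv.symm (resInvOfHom f φ), fun n => ?_⟩
  unfold resHomOfH0
  rw [AddEquiv.apply_symm_apply]
  rfl

theorem resHomOfH0_eq_zero (y : Hsm 𝓝H (ResMod f (HomMod N A)) 0)
    (h : ∀ n, resHomOfH0 f y n = 0) : y = 0 := by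
  apply Hsm.H0equiv.injective
  rw [map_zero]
  apply Subtype.ext
  apply (ResMod.toRes f).symm.injective
  rw [ZeroMemClass.coe_zero, map_zero]
  ext n
  exact h (ResMod.toRes f n)

theorem resHomOfH0_map (φ : N →+[G] N') (y : Hsm 𝓝H (ResMod f (HomMod N' A)) 0)
    (n : ResMod f N) :
    resHomOfH0 f (Hsm.map (ResMod.map f (precomp A φ)) 0 y) n =
      resHomOfH0 f y (ResMod.map f φ n) := by
  unfold resHomOfH0
  rw [Hsm.H0equiv_map]
  rfl

/-- Compatibility of the global and the local dictionary. -/
theorem resHomOfH0_res {𝓝G : LevelSys G} (hf : (𝓝G.comap f).Le 𝓝H)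
    (z : Hsm 𝓝G (HomMod N A) 0) (n : ResMod f N) :
    resHomOfH0 f (Hsm.res (HomMod N A) f 𝓝H 𝓝G hf 0 z) n = ResMod.map f (homOfH0 z) n := by
  induction z using Hsm.induction_on with
  | h z =>
    have e : (fun i : Fin 0 => f ((default : Fin 0 → H) i)) = (default : Fin 0 → G) :=
      Subsingleton.elim _ _
    change ResMod.toRes f (((z : (Fin 0 → G) → HomMod N A)
      (fun i : Fin 0 => f ((default : Fin 0 → H) i))) ((ResMod.toRes f).symm n)) = _
    rw [e]
    rfl

end loc

end Fermat.Agent.S55.Formal
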