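/-
S55 / FORMAL (helper176): effaceability in degree one.
Every class of `H^1(A)` dies in `H^1(IndMod (G ⧸ U) A)` for a small level `U`; dual form for
`A = HomMod M B` and the map induced by the sum `IndMod (G ⧸ U) M → M`.
-/
import Fermat.Agent.S55.Formal.HomDual
import Fermat.Agent.S55.Coh.SetDefs

set_option autoImplicit false

namespace Fermat.Agent.S55.Formal

variable {G : Type} [Group G] {𝓝 : LevelSys G}

section dd

variable {A : Type} [AddCommGroup A] [DistribMulAction G A]

/-- The differential in degree one. -/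
theorem dd_one_apply (f : (Fin 1 → G) → A) (g : Fin 2 → G) :
    dd A 1 f g = g 0 • f (fun _ => g 1) - f (fun _ => g 0 * g 1) + f (fun _ => g 0) := by
  have e0 : (fun i : Fin 1 => g i.succ) = fun _ => g 1 := by
    funext i; fin_cases i; rfl
  have e1 : Fin.contractNth (0 : Fin 2) (· * ·) g = fun _ => g 0 * g 1 := by
    funext i; fin_cases i; simp [Fin.contractNth]
  have e2 : Fin.contractNth (1 : Fin 2) (· * ·) g = fun _ => g 0 := by
    funext i; fin_cases i; simp [Fin.contractNth]
  rw [dd_apply, Fin.sum_univ_two, e0, e1, e2]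
  simp
  abel

/-- The cocycle identity in degree one. -/
theorem cocycle_one {z : (Fin 1 → G) → A} (hz : z ∈ Zsm 𝓝 A 1) (g h : G) :
    z (fun _ => g * h) = z (fun _ => g) + g • z (fun _ => h) := by
  have h1 := congrFun (dd_eq_zero_of_mem_Zsm hz) ![g, h]
  rw [dd_one_apply] at h1
  simp only [Matrix.cons_val_zero, Matrix.cons_val_one, Pi.zero_apply] at h1
  have h2 : z (fun _ => g * h) = g • z (fun _ => h) + z (fun _ => g) := by
    rw [sub_add_eq_add_sub, sub_eq_zero] at h1
    exact h1.symm
  rw [h2, add_comm]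

/-- Every class of degree one dies in `IndMod (G ⧸ U) A` for a small level `U`. -/
theorem exists_map_const_eq_zero (x : Hsm 𝓝 A 1) :
    ∃ U ∈ 𝓝.carrier, Hsm.map (IndMod.const (G ⧸ U) A) 1 x = 0 := by
  induction x using Hsm.induction_on with
  | h z =>
    obtain ⟨U, hU, hlev⟩ := z.2.1
    refine ⟨U, hU, ?_⟩
    rw [Hsm.map_mk, Hsm.mk_eq_zero_iff]
    let c : G → A := fun g => (z : (Fin 1 → G) → A) (fun _ => g)
    have hc : ∀ a b : G, QuotientGroup.leftRel U a b → c a = c b := by
      intro a b hab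
      rw [QuotientGroup.leftRel_apply] at hab
      exact hlev _ _ fun _ => hab
    let b : IndMod (G ⧸ U) A := IndMod.of fun x => Quotient.liftOn' x c hc
    have hb : ∀ g : G, b (g : G ⧸ U) = c g := fun g => rfl
    refine ⟨fun _ => -b, mem_Csm_zero _, ?_⟩
    funext g
    rw [dd_zero_apply]
    ext x
    induction x using QuotientGroup.induction_on with
    | H y =>
      have e1 : (g 0)⁻¹ • (y : G ⧸ U) = (((g 0)⁻¹ * y : G) : G ⧸ U) := rfl
      have e2 : g = fun _ => g 0 := by
        funext i; fin_cases i; rfl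
      have e3 := cocycle_one z.2 (g 0) ((g 0)⁻¹ * y)
      rw [mul_inv_cancel_left] at e3
      change ((g 0) • (-b) - (-b)) (y : G ⧸ U) = (z : (Fin 1 → G) → A) g
      rw [IndMod.sub_apply, IndMod.smul_apply, IndMod.neg_apply, IndMod.neg_apply, e1, hb, hb]
      change (g 0) • (-(z : (Fin 1 → G) → A) (fun _ => (g 0)⁻¹ * y)) -
        (-(z : (Fin 1 → G) → A) (fun _ => y)) = _
      rw [e3, smul_neg]
      conv_rhs => rw [e2]
      abel

end dd

section dual

variable {X Y : Type} [MulAction G X] [MulAction G Y]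
variable {M B : Type} [AddCommGroup M] [DistribMulAction G M] [AddCommGroup B]
  [DistribMulAction G B]

/-- The natural map `Map(X, Hom(M, B)) → Hom(Map(X, M), B)`, `φ ↦ (f ↦ ∑ₓ φ x (f x))`. -/
noncomputable def indDual [Finite X] : IndMod X (HomMod M B) →+[G] HomMod (IndMod X M) B where
  toFun φ := HomMod.of
    { toFun := fun f => ∑ᶠ x : X, φ x (f x)
      map_zero' := by simp
      map_add' := fun f f' => by
        simp only [IndMod.add_apply, map_add]
        exact finsum_add_distrib (Set.toFinite _) (Set.toFinite _) }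
  map_smul' g φ := by
    ext f
    change ∑ᶠ x : X, g • (φ (g⁻¹ • x)) (g⁻¹ • f x) =
      g • ∑ᶠ x : X, φ x (g⁻¹ • f (g⁻¹⁻¹ • x))
    rw [smul_finsum' _ (Set.toFinite _)]
    rw [← finsum_comp_equiv (MulAction.toPerm g⁻¹)
      (f := fun x => g • (φ x) (g⁻¹ • f (g⁻¹⁻¹ • x)))]
    simp
  map_zero' := by
    ext f
    change ∑ᶠ x : X, (0 : HomMod M B) (f x) = 0
    simp
  map_add' φ φ' := by
    ext f
    change ∑ᶠ x : X, (φ x + φ' x) (f x) = ∑ᶠ x : X, φ x (f x) + ∑ᶠ x : X, φ' x (f x)
    simp only [HomMod.add_apply]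
    exact finsum_add_distrib (Set.toFinite _) (Set.toFinite _)

theorem indDual_apply [Finite X] (φ : IndMod X (HomMod M B)) (f : IndMod X M) :
    indDual (G := G) φ f = ∑ᶠ x : X, φ x (f x) := rfl

theorem indDual_const [Finite X] (u : HomMod M B) :
    indDual (G := G) (IndMod.const (G := G) X (HomMod M B) u) =
      precomp B (IndMod.sum (G := G) X M) u := by
  ext f
  rw [indDual_apply, precomp_apply, IndMod.sum_def]
  simp only [IndMod.const_apply]
  exact ((HomMod.toHom u).map_finsum (Set.toFinite _)).symm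

/-- Every class of `H^1(Hom(M, B))` dies in `H^1(Hom(IndMod (G ⧸ U) M, B))` for a small level. -/
theorem exists_map_precomp_sum_eq_zero (x : Hsm 𝓝 (HomMod M B) 1) :
    ∃ U ∈ 𝓝.carrier, ∀ _ : Finite (G ⧸ U),
      Hsm.map (precomp B (IndMod.sum (G ⧸ U) M)) 1 x = 0 := by
  obtain ⟨U, hU, h⟩ := exists_map_const_eq_zero x
  refine ⟨U, hU, fun _ => ?_⟩
  rw [Hsm.map_comp' (ψ := indDual) (φ := IndMod.const (G ⧸ U) (HomMod M B))
    (fun u => (indDual_const u).symm), h, map_zero]

/-- The sum of the fibre sums is the sum. -/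
theorem sum_push [Finite X] [Finite Y] (u : Y →[G] X) (f : IndMod Y M) :
    IndMod.sum (G := G) X M (IndMod.push M u f) = IndMod.sum (G := G) Y M f := by
  classical
  cases nonempty_fintype X
  cases nonempty_fintype Y
  rw [IndMod.sum_def, IndMod.sum_def, finsum_eq_sum_of_fintype, finsum_eq_sum_of_fintype]
  simp only [IndMod.push_apply, finsum_eq_sum_of_fintype]
  exact Fintype.sum_fiberwise u (fun y => f y)

/-- The sum map is onto. -/
theorem sum_surjective [Finite X] [Nonempty X] :
    Function.Surjective (IndMod.sum (G := G) X M) := by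
  classical
  intro m
  obtain ⟨x0⟩ := ‹Nonempty X›
  refine ⟨IndMod.of fun x => if x = x0 then m else 0, ?_⟩
  rw [IndMod.sum_def]
  simp only [IndMod.of_apply]
  rw [finsum_eq_single _ x0 (fun x hx => by simp [hx])]
  simp

end dual

end Fermat.Agent.S55.Formal
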