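/-
S55, block FORMAL, abstract core of Theorem F1 (owner: helper176).

Pure abelian-group statement (Mathlib only).  For a short exact sequence of coefficient modules
`0 → Q → F → M → 0` we are given the degree two groups `H2 N`, the products of the local degree
two groups `P2 N`, the groups `Z N = Hom_G (N, μ)`, `Y N = ∏_q Hom_{G_q} (N, μ)`, the perfect
pairings `P2 N × Y N → ZMod p` and the description (PT) of the image of the localisation map.
The conclusion: the kernel of `H2 M → P2 M` is finite, of the same cardinality as the group of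
classes of `H1 (M')` which die in `H1 (F')` and in all local groups.
-/
import Mathlib
open Module
namespace Fermat.Agent.S55.Formal

variable {p : ℕ} [Fact p.Prime]

section Ann

variable {P Y : Type*} [AddCommGroup P] [AddCommGroup Y]

/-- Left annihilator of a subgroup of `Y` for a pairing `P × Y → ZMod p`. -/
def annL (B : P →+ Y →+ ZMod p) (W : AddSubgroup Y) : AddSubgroup P where
  carrier := {y | ∀ f ∈ W, B y f = 0}
  zero_mem' := by intro f _; simp
  add_mem' := by
    intro a b ha hb f hf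
    simp [ha f hf, hb f hf]
  neg_mem' := by
    intro a ha f hf
    simp [ha f hf]

theorem mem_annL (B : P →+ Y →+ ZMod p) (W : AddSubgroup Y) (y : P) :
    y ∈ annL B W ↔ ∀ f ∈ W, B y f = 0 := Iff.rfl

theorem nsmul_eq_zero_of_left (B : P →+ Y →+ ZMod p)
    (hL : ∀ y, (∀ f, B y f = 0) → y = 0) (y : P) : p • y = 0 := by
  apply hL
  intro f
  rw [map_nsmul, AddMonoidHom.nsmul_apply, nsmul_eq_mul, CharP.cast_eq_zero, zero_mul]

theorem card_annL_mul_card_aux [Module (ZMod p) P] [Module (ZMod p) Y] [Finite P] [Finite Y]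
    (B : P →+ Y →+ ZMod p)
    (hL : ∀ y, (∀ f, B y f = 0) → y = 0) (hR : ∀ f, (∀ y, B y f = 0) → f = 0)
    (W : AddSubgroup Y) : Nat.card (annL B W) * Nat.card W = Nat.card Y := by
  classical
  let Bl : P →ₗ[ZMod p] Module.Dual (ZMod p) Y :=
    { toFun := fun y => (B y).toZModLinearMap p
      map_add' := fun a b => by
        ext f
        simp
      map_smul' := fun c y => by
        ext f
        simpa using ZMod.map_smul (B.flip f) c y }
  have hBl : ∀ y f, Bl y f = B y f := fun _ _ => rfl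
  have inj1 : Function.Injective Bl := by
    rw [injective_iff_map_eq_zero]
    intro y hy
    apply hL
    intro f
    rw [← hBl, hy]; rfl
  have inj2 : Function.Injective Bl.flip := by
    rw [injective_iff_map_eq_zero]
    intro f hf
    apply hR
    intro y
    rw [← hBl, ← LinearMap.flip_apply, hf]; rfl
  have h1 : finrank (ZMod p) P ≤ finrank (ZMod p) Y :=
    (LinearMap.finrank_le_finrank_of_injective inj1).trans_eq Subspace.dual_finrank_eq
  have h2 : finrank (ZMod p) Y ≤ finrank (ZMod p) P :=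
    (LinearMap.finrank_le_finrank_of_injective inj2).trans_eq Subspace.dual_finrank_eq
  have surj1 : Function.Surjective Bl :=
    (LinearMap.injective_iff_surjective_of_finrank_eq_finrank
      (by rw [Subspace.dual_finrank_eq]; omega)).1 inj1
  let e : P ≃ₗ[ZMod p] Module.Dual (ZMod p) Y := LinearEquiv.ofBijective Bl ⟨inj1, surj1⟩
  let W' : Submodule (ZMod p) Y := AddSubgroup.toZModSubmodule p W
  have c1 : Nat.card (annL B W) = Nat.card W'.dualAnnihilator :=
    Nat.card_congr (Equiv.subtypeEquiv e.toEquiv (fun y => by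
      rw [Submodule.mem_dualAnnihilator, mem_annL]; rfl))
  have c2 : Nat.card W = Nat.card W' := rfl
  rw [c1, c2, Module.natCard_eq_pow_finrank (K := ZMod p) (V := W'),
    Module.natCard_eq_pow_finrank (K := ZMod p) (V := W'.dualAnnihilator),
    Module.natCard_eq_pow_finrank (K := ZMod p) (V := Y), ← pow_add, add_comm,
    Subspace.finrank_add_finrank_dualAnnihilator_eq]

/-- The basic counting statement for a perfect pairing of finite groups. -/
theorem card_annL_mul_card [Finite P] [Finite Y] (B : P →+ Y →+ ZMod p)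
    (hL : ∀ y, (∀ f, B y f = 0) → y = 0) (hR : ∀ f, (∀ y, B y f = 0) → f = 0)
    (W : AddSubgroup Y) : Nat.card (annL B W) * Nat.card W = Nat.card Y :=
  @card_annL_mul_card_aux p _ P Y _ _
    (AddCommGroup.zmodModule (nsmul_eq_zero_of_left B hL))
    (AddCommGroup.zmodModule (nsmul_eq_zero_of_left B.flip hR)) _ _ B hL hR W

/-- Right annihilator of a subgroup of `P` for a pairing `P × Y → ZMod p`. -/
def annR (B : P →+ Y →+ ZMod p) (U : AddSubgroup P) : AddSubgroup Y := annL B.flip U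

theorem mem_annR (B : P →+ Y →+ ZMod p) (U : AddSubgroup P) (f : Y) :
    f ∈ annR B U ↔ ∀ y ∈ U, B y f = 0 := Iff.rfl

theorem card_annR_mul_card [Finite P] [Finite Y] (B : P →+ Y →+ ZMod p)
    (hL : ∀ y, (∀ f, B y f = 0) → y = 0) (hR : ∀ f, (∀ y, B y f = 0) → f = 0)
    (U : AddSubgroup P) : Nat.card (annR B U) * Nat.card U = Nat.card P :=
  card_annL_mul_card B.flip hR hL U

theorem card_eq_of_perfect [Finite P] [Finite Y] (B : P →+ Y →+ ZMod p)
    (hL : ∀ y, (∀ f, B y f = 0) → y = 0) (hR : ∀ f, (∀ y, B y f = 0) → f = 0) :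
    Nat.card P = Nat.card Y := by
  have h := card_annL_mul_card B hL hR ⊥
  have h2 : annL B ⊥ = ⊤ := by
    ext y
    simp [mem_annL]
  rw [h2] at h
  simpa using h

/-- Double annihilator, subgroups of `Y`. -/
theorem annR_annL [Finite P] [Finite Y] (B : P →+ Y →+ ZMod p)
    (hL : ∀ y, (∀ f, B y f = 0) → y = 0) (hR : ∀ f, (∀ y, B y f = 0) → f = 0)
    (W : AddSubgroup Y) : annR B (annL B W) = W := by
  have hle : W ≤ annR B (annL B W) := fun f hf y hy => hy f hf
  have h1 := card_annL_mul_card B hL hR W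
  have h2 := card_annR_mul_card B hL hR (annL B W)
  have h3 := card_eq_of_perfect B hL hR
  have hpos : 0 < Nat.card (annL B W) := Nat.card_pos
  have h4 : Nat.card (annR B (annL B W)) = Nat.card W := by
    have : Nat.card (annL B W) * Nat.card (annR B (annL B W))
        = Nat.card (annL B W) * Nat.card W := by
      rw [h1, mul_comm, h2, h3]
    exact Nat.eq_of_mul_eq_mul_left hpos this
  exact (AddSubgroup.eq_of_le_of_card_ge hle h4.le).symm

/-- Double annihilator, subgroups of `P`. -/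
theorem annL_annR [Finite P] [Finite Y] (B : P →+ Y →+ ZMod p)
    (hL : ∀ y, (∀ f, B y f = 0) → y = 0) (hR : ∀ f, (∀ y, B y f = 0) → f = 0)
    (U : AddSubgroup P) : annL B (annR B U) = U :=
  annR_annL B.flip hR hL U

end Ann

section Count

/-- Two maps out of `E`: a surjection `a` onto `A` and a map `b` to a finite group `V` with image
`R`, such that `ker a = b ⁻¹ D` for a subgroup `D ≤ R`.  Then `|A| * |D| = |R|`. -/
theorem card_mul_card_of_two_maps {E A V : Type*} [AddCommGroup E] [AddCommGroup A]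
    [AddCommGroup V] [Finite V] (a : E →+ A) (b : E →+ V) (ha : Function.Surjective a)
    (D R : AddSubgroup V) (hR : ∀ y, y ∈ R ↔ ∃ x, b x = y) (hDR : D ≤ R)
    (h : ∀ x, a x = 0 ↔ b x ∈ D) :
    Finite A ∧ Nat.card A * Nat.card D = Nat.card R := by
  have hRr : b.range = R := by
    ext y
    rw [hR, AddMonoidHom.mem_range]
  have hker : a.ker = D.comap b := by
    ext x
    rw [AddMonoidHom.mem_ker, h, AddSubgroup.mem_comap]
  have h1 : Nat.card A = D.relIndex R := by
    have e1 : a.ker.index = Nat.card a.range := AddSubgroup.index_ker a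
    have e2 : Nat.card a.range = Nat.card A := by
      rw [AddMonoidHom.range_eq_top.2 ha]
      exact Nat.card_congr AddSubgroup.topEquiv.toEquiv
    have e3 : (D.comap b).relIndex ⊤ = D.relIndex ((⊤ : AddSubgroup E).map b) :=
      AddSubgroup.relIndex_comap D b ⊤
    rw [AddSubgroup.relIndex_top_right, ← AddMonoidHom.range_eq_map, hRr, ← hker, e1, e2] at e3
    exact e3
  have h2 : (⊥ : AddSubgroup V).relIndex D * D.relIndex R = (⊥ : AddSubgroup V).relIndex R :=
    AddSubgroup.relIndex_mul_relIndex ⊥ D R bot_le hDR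
  rw [AddSubgroup.relIndex_bot_left, AddSubgroup.relIndex_bot_left, ← h1] at h2
  have h3 : Nat.card A * Nat.card D = Nat.card R := by rw [mul_comm]; exact h2
  refine ⟨?_, h3⟩
  apply Nat.finite_of_card_ne_zero
  intro h0
  rw [h0, zero_mul] at h3
  exact (Nat.card_pos (α := R)).ne h3

end Count

section Main

/-- **Abstract core of Theorem F1.**
Notation of the blueprint: `0 → Q → F → M → 0`, `H2 N = H²_S(N)`, `P2 N = ∏_q H²_q(N)`,
`Z N = Hom_G(N, μ)`, `Y N = ∏_q Hom_{G_q}(N, μ)`, `H1M = H¹(M')`, `H1F = H¹(F')`,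
`P1M = ∏_q H¹_q(M')`. -/
theorem card_sha2_eq_card_sha1
    {H2Q H2F H2M P2Q P2F P2M ZQ ZF YQ YF YM H1M H1F P1M : Type*}
    [AddCommGroup H2Q] [AddCommGroup H2F] [AddCommGroup H2M]
    [AddCommGroup P2Q] [AddCommGroup P2F] [AddCommGroup P2M]
    [AddCommGroup ZQ] [AddCommGroup ZF] [AddCommGroup YQ] [AddCommGroup YF] [AddCommGroup YM]
    [AddCommGroup H1M] [AddCommGroup H1F] [AddCommGroup P1M]
    [Finite P2Q] [Finite P2F] [Finite YQ] [Finite YF]
    -- degree two, covariant
    (jH : H2Q →+ H2F) (πH : H2F →+ H2M) (jP : P2Q →+ P2F) (πP : P2F →+ P2M)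
    (locQ : H2Q →+ P2Q) (locF : H2F →+ P2F) (locM : H2M →+ P2M)
    (loc_j : ∀ x, locF (jH x) = jP (locQ x))
    (loc_π : ∀ x, locM (πH x) = πP (locF x))
    (πH_jH : ∀ x, πH (jH x) = 0)
    (exact_H2F : ∀ x, πH x = 0 → ∃ u, jH u = x)
    (surj_πH : Function.Surjective πH)
    (sha_kill : ∀ x, locF x = 0 → πH x = 0)
    -- degree zero of the duals, contravariant
    (jZ : ZF →+ ZQ) (jY : YF →+ YQ) (πY : YM →+ YF) (ιQ : ZQ →+ YQ) (ιF : ZF →+ YF)
    (ι_j : ∀ z, ιQ (jZ z) = jY (ιF z))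
    (ιQ_inj : Function.Injective ιQ)
    (jY_πY : ∀ g, jY (πY g) = 0)
    (exact_YF : ∀ f, jY f = 0 → ∃ g, πY g = f)
    -- the pairings (LD)
    (BQ : P2Q →+ YQ →+ ZMod p) (BF : P2F →+ YF →+ ZMod p) (BM : P2M →+ YM →+ ZMod p)
    (BQ_left : ∀ y, (∀ f, BQ y f = 0) → y = 0) (BQ_right : ∀ f, (∀ y, BQ y f = 0) → f = 0)
    (BF_left : ∀ y, (∀ f, BF y f = 0) → y = 0) (BF_right : ∀ f, (∀ y, BF y f = 0) → f = 0)
    (BM_left : ∀ y, (∀ f, BM y f = 0) → y = 0)
    (adj_j : ∀ y f, BF (jP y) f = BQ y (jY f))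
    (adj_π : ∀ y g, BM (πP y) g = BF y (πY g))
    -- (PT)
    (PT_Q : ∀ y, (∃ x, locQ x = y) ↔ ∀ z, BQ y (ιQ z) = 0)
    (PT_F : ∀ y, (∃ x, locF x = y) ↔ ∀ z, BF y (ιF z) = 0)
    -- connecting maps
    (δ : ZQ →+ H1M) (δloc : YQ →+ P1M) (res : H1M →+ H1F) (loc1 : H1M →+ P1M)
    (ker_δ : ∀ z, δ z = 0 ↔ ∃ z', jZ z' = z)
    (range_δ : ∀ x, res x = 0 ↔ ∃ z, δ z = x)
    (ker_δloc : ∀ f, δloc f = 0 ↔ ∃ f', jY f' = f)
    (loc_δ : ∀ z, loc1 (δ z) = δloc (ιQ z)) :
    Finite locM.ker ∧ Nat.card locM.ker = Nat.card ↥(res.ker ⊓ loc1.ker) := by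
  classical
  -- the four subgroups
  let Num : AddSubgroup P2F := locF.range ⊓ πP.ker
  let Den : AddSubgroup P2F := locQ.range.map jP
  let C : AddSubgroup YF := ιQ.range.comap jY
  let D : AddSubgroup YF := ιF.range ⊔ πY.range
  -- Step 1
  have step1 : Finite locM.ker ∧ Nat.card locM.ker * Nat.card Den = Nat.card Num := by
    let E : AddSubgroup H2F := (locM.comp πH).ker
    let a : E →+ locM.ker := (πH.comp E.subtype).codRestrict locM.ker (fun x => x.2)
    let b : E →+ P2F := locF.comp E.subtype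
    refine card_mul_card_of_two_maps a b ?_ Den Num ?_ ?_ ?_
    · rintro ⟨x, hx⟩
      obtain ⟨x', rfl⟩ := surj_πH x
      exact ⟨⟨x', hx⟩, rfl⟩
    · intro y
      constructor
      · rintro ⟨⟨x, rfl⟩, hy⟩
        refine ⟨⟨x, ?_⟩, rfl⟩
        rw [AddMonoidHom.mem_ker, AddMonoidHom.comp_apply, loc_π]
        exact hy
      · rintro ⟨⟨x, hx⟩, rfl⟩
        refine ⟨⟨x, rfl⟩, ?_⟩
        rw [AddMonoidHom.mem_ker, AddMonoidHom.comp_apply, loc_π] at hx
        exact hx
    · rintro _ ⟨_, ⟨u, rfl⟩, rfl⟩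
      refine ⟨⟨jH u, loc_j u⟩, ?_⟩
      change πP (jP (locQ u)) = 0
      rw [← loc_j, ← loc_π, πH_jH, map_zero]
    · rintro ⟨x, hx⟩
      have ha : a ⟨x, hx⟩ = 0 ↔ πH x = 0 := by
        rw [Subtype.ext_iff]; rfl
      rw [ha]
      constructor
      · intro h0
        obtain ⟨u, rfl⟩ := exact_H2F x h0
        exact ⟨locQ u, ⟨u, rfl⟩, (loc_j u).symm⟩
      · rintro ⟨_, ⟨u, rfl⟩, hu⟩
        have h1 : locF (x - jH u) = 0 := by
          rw [map_sub, loc_j, sub_eq_zero]
          exact hu.symm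
        have h2 := sha_kill _ h1
        rw [map_sub, πH_jH, sub_zero] at h2
        exact h2
  -- Step 2
  have hNum : Num = annL BF D := by
    ext y
    rw [mem_annL]
    constructor
    · rintro ⟨hy1, hy2⟩ f hf
      obtain ⟨f1, ⟨z, rfl⟩, f2, ⟨g, rfl⟩, rfl⟩ := AddSubgroup.mem_sup.1 hf
      have e1 : BF y (ιF z) = 0 := (PT_F y).1 hy1 z
      have e2 : BF y (πY g) = 0 := by
        rw [← adj_π, AddMonoidHom.mem_ker.1 hy2]; simp
      rw [map_add, e1, e2, add_zero]
    · intro hy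
      refine ⟨(PT_F y).2 (fun z => hy _ (AddSubgroup.mem_sup_left ⟨z, rfl⟩)), ?_⟩
      change πP y = 0
      apply BM_left
      intro g
      rw [adj_π]
      exact hy _ (AddSubgroup.mem_sup_right ⟨g, rfl⟩)
  have hlocQ : locQ.range = annL BQ ιQ.range := by
    ext y
    rw [mem_annL, AddMonoidHom.mem_range, PT_Q]
    constructor
    · rintro h _ ⟨z, rfl⟩
      exact h z
    · intro h z
      exact h _ ⟨z, rfl⟩
  have hC : annR BF Den = C := by
    ext f
    rw [mem_annR, AddSubgroup.mem_comap, ← annR_annL BQ BQ_left BQ_right ιQ.range, ← hlocQ,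
      mem_annR]
    constructor
    · intro h y hy
      rw [← adj_j]
      exact h _ ⟨y, hy, rfl⟩
    · rintro h _ ⟨y, hy, rfl⟩
      rw [adj_j]
      exact h y hy
  have hDen : Den = annL BF C := by
    rw [← hC, annL_annR BF BF_left BF_right]
  have cNum : Nat.card Num * Nat.card D = Nat.card YF := by
    rw [hNum]; exact card_annL_mul_card BF BF_left BF_right D
  have cDen : Nat.card Den * Nat.card C = Nat.card YF := by
    rw [hDen]; exact card_annL_mul_card BF BF_left BF_right C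
  -- Step 3
  have step3 : Finite ↥(res.ker ⊓ loc1.ker) ∧
      Nat.card ↥(res.ker ⊓ loc1.ker) * Nat.card D = Nat.card C := by
    let E : AddSubgroup (YF × ZQ) :=
      ((jY.comp (AddMonoidHom.fst YF ZQ)) - (ιQ.comp (AddMonoidHom.snd YF ZQ))).ker
    have hE : ∀ x : YF × ZQ, x ∈ E ↔ jY x.1 = ιQ x.2 := by
      intro x
      rw [AddMonoidHom.mem_ker, AddMonoidHom.sub_apply, sub_eq_zero]
      rfl
    let a : E →+ ↥(res.ker ⊓ loc1.ker) :=
      ((δ.comp (AddMonoidHom.snd YF ZQ)).comp E.subtype).codRestrict _ (fun x => by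
        refine ⟨(range_δ _).2 ⟨x.1.2, rfl⟩, ?_⟩
        change loc1 (δ x.1.2) = 0
        rw [loc_δ, ker_δloc]
        exact ⟨x.1.1, (hE _).1 x.2⟩)
    let b : E →+ YF := (AddMonoidHom.fst YF ZQ).comp E.subtype
    refine card_mul_card_of_two_maps a b ?_ D C ?_ ?_ ?_
    · rintro ⟨x, hx1, hx2⟩
      obtain ⟨z, rfl⟩ := (range_δ x).1 hx1
      have hx2' : loc1 (δ z) = 0 := hx2
      rw [loc_δ, ker_δloc] at hx2'
      obtain ⟨f, hf⟩ := hx2'
      exact ⟨⟨(f, z), (hE _).2 hf⟩, rfl⟩
    · intro f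
      constructor
      · rintro ⟨z, hz⟩
        exact ⟨⟨(f, z), (hE _).2 hz.symm⟩, rfl⟩
      · rintro ⟨⟨⟨f', z⟩, hx⟩, rfl⟩
        exact ⟨z, ((hE _).1 hx).symm⟩
    · intro f hf
      obtain ⟨f1, ⟨z, rfl⟩, f2, ⟨g, rfl⟩, rfl⟩ := AddSubgroup.mem_sup.1 hf
      refine ⟨jZ z, ?_⟩
      rw [map_add, jY_πY, add_zero, ι_j]
    · rintro ⟨⟨f, z⟩, hx⟩
      have hfz : jY f = ιQ z := (hE _).1 hx
      have ha : a ⟨(f, z), hx⟩ = 0 ↔ δ z = 0 := by
        rw [Subtype.ext_iff]; rfl
      rw [ha, ker_δ]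
      change (∃ z', jZ z' = z) ↔ f ∈ D
      constructor
      · rintro ⟨z', rfl⟩
        have h0 : jY (f - ιF z') = 0 := by
          rw [map_sub, hfz, ι_j, sub_self]
        obtain ⟨g, hg⟩ := exact_YF _ h0
        exact AddSubgroup.mem_sup.2 ⟨ιF z', ⟨z', rfl⟩, πY g, ⟨g, rfl⟩, by rw [hg]; abel⟩
      · intro hf
        obtain ⟨f1, ⟨z', rfl⟩, f2, ⟨g, rfl⟩, hfe⟩ := AddSubgroup.mem_sup.1 hf
        refine ⟨z', ιQ_inj ?_⟩
        rw [← hfz, ← hfe, map_add, jY_πY, add_zero, ι_j]
  -- Step 4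
  refine ⟨step1.1, ?_⟩
  have hpos : 0 < Nat.card Den * Nat.card D := Nat.mul_pos Nat.card_pos Nat.card_pos
  apply Nat.eq_of_mul_eq_mul_right hpos
  calc Nat.card locM.ker * (Nat.card Den * Nat.card D)
      = (Nat.card locM.ker * Nat.card Den) * Nat.card D := by ring
    _ = Nat.card YF := by rw [step1.2, cNum]
    _ = Nat.card Den * (Nat.card ↥(res.ker ⊓ loc1.ker) * Nat.card D) := by rw [step3.2, cDen]
    _ = Nat.card ↥(res.ker ⊓ loc1.ker) * (Nat.card Den * Nat.card D) := by ring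

end Main

section Pi

variable {ι : Type*} [Fintype ι] {P Y : ι → Type*} [∀ i, AddCommGroup (P i)]
  [∀ i, AddCommGroup (Y i)]

/-- The sum of a finite family of pairings, as a pairing of the products. -/
def piPairing (B : ∀ i, P i →+ Y i →+ ZMod p) : (∀ i, P i) →+ (∀ i, Y i) →+ ZMod p :=
  AddMonoidHom.mk'
    (fun y => AddMonoidHom.mk' (fun f => ∑ i, B i (y i) (f i))
      (by intro a b; simp [Finset.sum_add_distrib]))
    (by intro a b; ext f; simp [Finset.sum_add_distrib])

theorem piPairing_apply (B : ∀ i, P i →+ Y i →+ ZMod p) (y : ∀ i, P i) (f : ∀ i, Y i) :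
    piPairing B y f = ∑ i, B i (y i) (f i) := rfl

theorem piPairing_left (B : ∀ i, P i →+ Y i →+ ZMod p)
    (h : ∀ i y, (∀ f, B i y f = 0) → y = 0) :
    ∀ y, (∀ f, piPairing B y f = 0) → y = 0 := by
  classical
  intro y H
  funext i
  apply h i
  intro f
  have h1 := H (Pi.single i f)
  rw [piPairing_apply, Finset.sum_eq_single i] at h1
  · simpa using h1
  · intro j _ hj
    rw [Pi.single_eq_of_ne hj, map_zero]
  · intro hi
    exact absurd (Finset.mem_univ i) hi

theorem piPairing_right (B : ∀ i, P i →+ Y i →+ ZMod p)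
    (h : ∀ i f, (∀ y, B i y f = 0) → f = 0) :
    ∀ f, (∀ y, piPairing B y f = 0) → f = 0 := by
  classical
  intro f H
  funext i
  apply h i
  intro y
  have h1 := H (Pi.single i y)
  rw [piPairing_apply, Finset.sum_eq_single i] at h1
  · simpa using h1
  · intro j _ hj
    rw [Pi.single_eq_of_ne hj, map_zero, AddMonoidHom.zero_apply]
  · intro hi
    exact absurd (Finset.mem_univ i) hi

end Pi

section Limit

/-- A subgroup which is exhausted by a directed family of subgroups of the same finite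
cardinality `c ≠ 0` has cardinality `c`. -/
theorem card_eq_of_exhaustion {X I : Type*} [AddCommGroup X] [Nonempty I]
    (Sha : AddSubgroup X) (XL : I → AddSubgroup X) (c : ℕ) (hc : c ≠ 0)
    (hdir : ∀ i j, ∃ k, XL i ≤ XL k ∧ XL j ≤ XL k)
    (hcard : ∀ i, Nat.card (XL i) = c)
    (hle : ∀ i, XL i ≤ Sha) (hex : ∀ x ∈ Sha, ∃ i, x ∈ XL i) :
    Finite Sha ∧ Nat.card Sha = c := by
  obtain ⟨i0⟩ := ‹Nonempty I›
  have hfin : ∀ i, Finite (XL i) := fun i =>
    Nat.finite_of_card_ne_zero (by rw [hcard]; exact hc)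
  have key : Sha = XL i0 := by
    apply le_antisymm _ (hle i0)
    intro x hx
    obtain ⟨j, hj⟩ := hex x hx
    obtain ⟨k, hk0, hkj⟩ := hdir i0 j
    have := hfin k
    have e : XL i0 = XL k :=
      AddSubgroup.eq_of_le_of_card_ge hk0 (by rw [hcard, hcard])
    rw [e]
    exact hkj hj
  rw [key]
  exact ⟨hfin i0, hcard i0⟩

end Limit

end Fermat.Agent.S55.Formal
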