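/-
S55 / FORMAL (helper176): the pairing `H^2(H, N) × H^0(H, Hom(N, A)) → ZMod p`,
`(x, y) ↦ t (y_* x)`, for a group `H` mapping to `G`, and its formal properties.
-/
import Fermat.Agent.S55.Formal.HomDual

set_option autoImplicit false

namespace Fermat.Agent.S55.Formal

variable {G H : Type} [Group G] [Group H] (f : H →* G) {𝓝H : LevelSys H} {p : ℕ}
variable {A : Type} [AddCommGroup A] [DistribMulAction G A]
variable (t : Hsm 𝓝H (ResMod f A) 2 →+ ZMod p)
variable {N N' : Type} [AddCommGroup N] [DistribMulAction G N] [AddCommGroup N']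
  [DistribMulAction G N']

/-- The pairing `(x, y) ↦ t (y_* x)`. -/
def pairH (N : Type) [AddCommGroup N] [DistribMulAction G N] :
    Hsm 𝓝H (ResMod f N) 2 →+ Hsm 𝓝H (ResMod f (HomMod N A)) 0 →+ ZMod p :=
  AddMonoidHom.mk'
    (fun x => AddMonoidHom.mk' (fun y => t (Hsm.map (resHomOfH0 f y) 2 x))
      (fun y y' => by
        rw [Hsm.map_add' (φ := resHomOfH0 f y) (ψ := resHomOfH0 f y')
          (resHomOfH0_add f y y'), map_add]))
    (fun x x' => by
      ext y
      simp)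

theorem pairH_apply (x : Hsm 𝓝H (ResMod f N) 2) (y : Hsm 𝓝H (ResMod f (HomMod N A)) 0) :
    pairH f t N x y = t (Hsm.map (resHomOfH0 f y) 2 x) := rfl

/-- Adjointness. -/
theorem pairH_adj (φ : N →+[G] N') (x : Hsm 𝓝H (ResMod f N) 2)
    (y : Hsm 𝓝H (ResMod f (HomMod N' A)) 0) :
    pairH f t N' (Hsm.map (ResMod.map f φ) 2 x) y =
      pairH f t N x (Hsm.map (ResMod.map f (precomp A φ)) 0 y) := by
  rw [pairH_apply, pairH_apply,
    Hsm.map_comp' (ψ := resHomOfH0 f y) (φ := ResMod.map f φ) (resHomOfH0_map f φ y)]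

theorem pairH_left
    (h : ∀ x : Hsm 𝓝H (ResMod f N) 2,
      (∀ ψ : ResMod f N →+[H] ResMod f A, t (Hsm.map ψ 2 x) = 0) → x = 0) :
    ∀ x, (∀ y, pairH f t N x y = 0) → x = 0 := by
  intro x hx
  apply h
  intro ψ
  obtain ⟨y, hy⟩ := resHomOfH0_surjective (𝓝H := 𝓝H) f ψ
  rw [← Hsm.map_congr hy]
  exact hx y

theorem pairH_right
    (h : ∀ ψ : ResMod f N →+[H] ResMod f A,
      (∀ x : Hsm 𝓝H (ResMod f N) 2, t (Hsm.map ψ 2 x) = 0) → ∀ n, ψ n = 0) :
    ∀ y, (∀ x, pairH f t N x y = 0) → y = 0 := by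
  intro y hy
  exact resHomOfH0_eq_zero f y (h _ hy)

/-- Pairing with the restriction of a global class of degree zero. -/
theorem pairH_res {𝓝G : LevelSys G} (hf : (𝓝G.comap f).Le 𝓝H) (x : Hsm 𝓝H (ResMod f N) 2)
    (z : Hsm 𝓝G (HomMod N A) 0) :
    pairH f t N x (Hsm.res (HomMod N A) f 𝓝H 𝓝G hf 0 z) =
      t (Hsm.map (ResMod.map f (homOfH0 z)) 2 x) := by
  rw [pairH_apply, Hsm.map_congr (resHomOfH0_res f hf z)]

omit [AddCommGroup A] [DistribMulAction G A] in
theorem finite_resMod [Finite A] : Finite (ResMod f A) := ‹Finite A›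

theorem finite_H0 [Finite A] : Finite (Hsm 𝓝H (ResMod f A) 0) :=
  have := finite_resMod f (A := A)
  Finite.of_equiv _ (Hsm.H0equiv (𝓝 := 𝓝H) (A := ResMod f A)).symm.toEquiv

theorem finite_H2 [NeZero p] [Finite N] [Finite A]
    (h : ∀ x, (∀ y, pairH f t N x y = 0) → x = 0) : Finite (Hsm 𝓝H (ResMod f N) 2) := by
  have h1 : Finite (HomMod N A) := finite_homMod
  have h2 : Finite (Hsm 𝓝H (ResMod f (HomMod N A)) 0) := finite_H0 f
  have h3 : Finite (Hsm 𝓝H (ResMod f (HomMod N A)) 0 →+ ZMod p) :=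
    Finite.of_injective (fun u => (u : _ → ZMod p)) DFunLike.coe_injective
  refine Finite.of_injective (pairH f t N) ?_
  rw [injective_iff_map_eq_zero]
  intro x hx
  apply h
  intro y
  rw [hx]
  rfl

end Fermat.Agent.S55.Formal
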