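/-
S55 / FORMAL (helper176): restriction `Hsm.res` commutes with `Hsm.map` and with the connecting
homomorphism `Hsm.delta`; it is injective in degree zero.
-/
import Fermat.Agent.S55.Coh.Res
import Fermat.Agent.S55.Coh.LESExact
import Fermat.Agent.S55.Coh.H0

set_option autoImplicit false

namespace Fermat.Agent.S55.Formal

variable {G H : Type} [Group G] [Group H] (f : H →* G)
variable {𝓝H : LevelSys H} {𝓝G : LevelSys G} (hf : (𝓝G.comap f).Le 𝓝H)
variable {A : Type} [AddCommGroup A] [DistribMulAction G A]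
variable {B : Type} [AddCommGroup B] [DistribMulAction G B]
variable {C : Type} [AddCommGroup C] [DistribMulAction G C]

/-- Restriction is natural in the coefficients. -/
theorem res_map (φ : A →+[G] B) (n : ℕ) (x : Hsm 𝓝G A n) :
    Hsm.res B f 𝓝H 𝓝G hf n (Hsm.map φ n x) =
      Hsm.map (ResMod.map f φ) n (Hsm.res A f 𝓝H 𝓝G hf n x) := by
  induction x using Hsm.induction_on with
  | h z => rfl

/-- A short exact sequence stays exact after restriction. -/
theorem shortExact_res {φ : A →+[G] B} {ψ : B →+[G] C} (h : ShortExact φ ψ) :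
    ShortExact (ResMod.map f φ) (ResMod.map f ψ) where
  inj := h.inj
  exact := h.exact
  surj := h.surj

include hf in
/-- Smoothness passes to the restriction. -/
theorem smooth_res [Smooth 𝓝G A] : Smooth 𝓝H (ResMod f A) :=
  Smooth.of_le (𝓝 := 𝓝G.comap f) hf

/-- Restriction commutes with the connecting homomorphism. -/
theorem res_delta [Smooth 𝓝G B] [Smooth 𝓝H (ResMod f B)] {φ : A →+[G] B} {ψ : B →+[G] C}
    (h : ShortExact φ ψ) (h' : ShortExact (ResMod.map f φ) (ResMod.map f ψ)) (n : ℕ)
    (y : Hsm 𝓝G C n) :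
    Hsm.res A f 𝓝H 𝓝G hf (n + 1) (Hsm.delta h n y) =
      Hsm.delta h' n (Hsm.res C f 𝓝H 𝓝G hf n y) := by
  induction y using Hsm.induction_on with
  | h z =>
    obtain ⟨a, ⟨b, hb, hbc, hab⟩, ha⟩ := Hsm.exists_delta_mk h z
    rw [ha]
    symm
    refine Hsm.delta_mk h' _ _ ?_
    refine ⟨pcmap f (ResMod.toRes f : B ≃+ ResMod f B).toAddMonoidHom n b,
      pcmap_mem_Csm f hf _ hb, ?_, ?_⟩
    · funext g
      exact congrFun hbc _
    · rw [dd_pcmap f _ (fun x a => (ResMod.smul_def f x a).symm)]
      funext g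
      exact congrFun hab _

/-- Restriction is injective in degree zero. -/
theorem res_zero_injective : Function.Injective (Hsm.res A f 𝓝H 𝓝G hf 0) := by
  rw [injective_iff_map_eq_zero]
  intro x hx
  induction x using Hsm.induction_on with
  | h z =>
    have h1 : Hsm.H0equiv (Hsm.res A f 𝓝H 𝓝G hf 0 (Hsm.mk 𝓝G A 0 z)) = 0 := by rw [hx, map_zero]
    have h2 : (z : (Fin 0 → G) → A) default = 0 := by
      have := congrArg Subtype.val h1
      have e : (fun i : Fin 0 => f ((default : Fin 0 → H) i)) = (default : Fin 0 → G) :=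
        Subsingleton.elim _ _
      have h3 : (z : (Fin 0 → G) → A) (fun i : Fin 0 => f ((default : Fin 0 → H) i)) = 0 := this
      rwa [e] at h3
    apply Hsm.H0equiv.injective
    rw [map_zero]
    exact Subtype.ext h2

end Fermat.Agent.S55.Formal
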