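/-
S55 / FORMAL (helper176): Theorem F1 for one short exact sequence `0 → Q → F → M → 0` such that
`Sha^2_S(F) → H^2_S(M)` vanishes: instantiation of `F1Abs.card_sha2_eq_card_sha1`.
-/
import Fermat.Agent.S55.Formal.Contract
import Fermat.Agent.S55.Formal.F1Abs
import Fermat.Agent.S55.Formal.ResNat
import Fermat.Agent.S55.Formal.Pairing

set_option autoImplicit false

namespace Fermat.Agent.S55.Formal

variable (S : Finset Nat.Primes) {p : ℕ}

section maps

variable (A : Type) [AddCommGroup A] [DistribMulAction GQ A]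
variable {B : Type} [AddCommGroup B] [DistribMulAction GQ B]

/-- The product of the localisation maps. -/
noncomputable def locAll (n : ℕ) : Hsm (lvlS S) A n →+ (∀ q : ↥S, Hloc q.1 A n) :=
  AddMonoidHom.pi fun q => locS S A q.1 n

theorem locAll_apply (n : ℕ) (x : Hsm (lvlS S) A n) (q : ↥S) :
    locAll S A n x q = locS S A q.1 n x := rfl

theorem ker_locAll (n : ℕ) : (locAll S A n).ker = Sha S A n := by
  ext x
  rw [AddMonoidHom.mem_ker, mem_Sha_iff, funext_iff]
  rfl

variable {A}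

/-- The product of the maps induced on the local cohomology groups. -/
noncomputable def mapAll (φ : A →+[GQ] B) (n : ℕ) :
    (∀ q : ↥S, Hloc q.1 A n) →+ (∀ q : ↥S, Hloc q.1 B n) :=
  AddMonoidHom.pi fun q =>
    (Hsm.map (ResMod.map (ιv q.1) φ) n).comp (Pi.evalAddMonoidHom (fun q : ↥S => Hloc q.1 A n) q)

theorem mapAll_apply (φ : A →+[GQ] B) (n : ℕ) (y : ∀ q : ↥S, Hloc q.1 A n) (q : ↥S) :
    mapAll S φ n y q = Hsm.map (ResMod.map (ιv q.1) φ) n (y q) := rfl

theorem locAll_map (φ : A →+[GQ] B) (n : ℕ) (x : Hsm (lvlS S) A n) :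
    locAll S B n (Hsm.map φ n x) = mapAll S φ n (locAll S A n x) :=
  funext fun q => res_map (ιv q.1) (lvlS_comap_le_lvlLoc S q.1) φ n x

end maps

section fixed

variable {S} [Fact p.Prime]
variable {Q F M : Type} [AddCommGroup Q] [DistribMulAction GQ Q] [AddCommGroup F]
  [DistribMulAction GQ F] [AddCommGroup M] [DistribMulAction GQ M]

/-- The global pairing `∏_q H^2_q(N) × ∏_q H^0_q(N') → ZMod p`. -/
noncomputable def pairAll (C : Contract S p) (N : Type) [AddCommGroup N] [DistribMulAction GQ N] :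
    (∀ q : ↥S, Hloc q.1 N 2) →+ (∀ q : ↥S, Hloc q.1 (HomMod N (Mu p)) 0) →+ ZMod p :=
  piPairing fun q : ↥S => pairH (ιv q.1) (C.t q.1) N

theorem pairAll_left (C : Contract S p) {N : Type} [AddCommGroup N] [DistribMulAction GQ N]
    (hN : IsCoef S p N) : ∀ y, (∀ f, pairAll C N y f = 0) → y = 0 :=
  piPairing_left _ fun q => pairH_left (ιv q.1) (C.t q.1) (C.LD₁ N hN q.1 q.2)

theorem pairAll_right (C : Contract S p) {N : Type} [AddCommGroup N] [DistribMulAction GQ N]
    (hN : IsCoef S p N) : ∀ f, (∀ y, pairAll C N y f = 0) → f = 0 :=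
  piPairing_right _ fun q => pairH_right (ιv q.1) (C.t q.1) (C.LD₂ N hN q.1 q.2)

theorem pairAll_adj (C : Contract S p) {N N' : Type} [AddCommGroup N] [DistribMulAction GQ N]
    [AddCommGroup N'] [DistribMulAction GQ N'] (φ : N →+[GQ] N')
    (y : ∀ q : ↥S, Hloc q.1 N 2) (f : ∀ q : ↥S, Hloc q.1 (HomMod N' (Mu p)) 0) :
    pairAll C N' (mapAll S φ 2 y) f = pairAll C N y (mapAll S (precomp (Mu p) φ) 0 f) := by
  unfold pairAll
  rw [piPairing_apply, piPairing_apply]
  exact Finset.sum_congr rfl fun q _ => pairH_adj (ιv q.1) (C.t q.1) φ (y q) (f q)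

theorem pairAll_loc (C : Contract S p) {N : Type} [AddCommGroup N] [DistribMulAction GQ N]
    (y : ∀ q : ↥S, Hloc q.1 N 2) (z : Hsm (lvlS S) (HomMod N (Mu p)) 0) :
    pairAll C N y (locAll S (HomMod N (Mu p)) 0 z) =
      ∑ q : ↥S, C.t q.1 (Hsm.map (ResMod.map (ιv q.1) (homOfH0 z)) 2 (y q)) := by
  unfold pairAll
  rw [piPairing_apply]
  exact Finset.sum_congr rfl fun q _ =>
    pairH_res (ιv q.1) (C.t q.1) (lvlS_comap_le_lvlLoc S q.1) (y q) z

/-- (PT) in the form needed by the abstract theorem. -/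
theorem pairAll_PT (C : Contract S p) {N : Type} [AddCommGroup N] [DistribMulAction GQ N]
    (hN : IsCoef S p N) (y : ∀ q : ↥S, Hloc q.1 N 2) :
    (∃ x, locAll S N 2 x = y) ↔ ∀ z, pairAll C N y (locAll S (HomMod N (Mu p)) 0 z) = 0 := by
  constructor
  · rintro ⟨x, rfl⟩ z
    rw [pairAll_loc]
    exact C.PT₀ N hN x (homOfH0 z)
  · intro h
    obtain ⟨x, hx⟩ := C.PT₁ N hN y (fun f => by
      obtain ⟨z, hz⟩ := homOfH0_surjective (𝓝 := lvlS S) f
      have h1 := h z
      rw [pairAll_loc] at h1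
      rw [← h1]
      refine Finset.sum_congr rfl fun q _ => ?_
      have e : homOfH0 z = f := DFunLike.ext _ _ hz
      rw [e])
    exact ⟨x, funext hx⟩

theorem finite_P2 (C : Contract S p) {N : Type} [AddCommGroup N] [DistribMulAction GQ N]
    (hN : IsCoef S p N) : Finite (∀ q : ↥S, Hloc q.1 N 2) := by
  have := hN.finite
  have := C.coefMu.finite
  have : ∀ q : ↥S, Finite (Hloc q.1 N 2) := fun q =>
    finite_H2 (ιv q.1) (C.t q.1) (pairH_left (ιv q.1) (C.t q.1) (C.LD₁ N hN q.1 q.2))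
  infer_instance

omit [Fact p.Prime] in
theorem finite_Y (C : Contract S p) {N : Type} [AddCommGroup N] [DistribMulAction GQ N]
    (hN : IsCoef S p N) : Finite (∀ q : ↥S, Hloc q.1 (HomMod N (Mu p)) 0) := by
  have := hN.finite
  have := C.coefMu.finite
  have : Finite (HomMod N (Mu p)) := finite_homMod
  have : ∀ q : ↥S, Finite (Hloc q.1 (HomMod N (Mu p)) 0) := fun q => finite_H0 (ιv q.1)
  infer_instance

/-- **Theorem F1 for one short exact sequence.** -/
theorem card_sha_fixed (hS : S.Nonempty) (C : Contract S p) (hQ : IsCoef S p Q)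
    (hF : IsCoef S p F) (hM : IsCoef S p M) {j : Q →+[GQ] F} {π : F →+[GQ] M}
    (h : ShortExact j π) (hkill : ∀ x ∈ Sha S F 2, Hsm.map π 2 x = 0) :
    Finite (Sha S M 2) ∧ Nat.card (Sha S M 2) =
      Nat.card ↥((Hsm.map (𝓝 := lvlS S) (precomp (Mu p) π) 1).ker ⊓
        Sha S (HomMod M (Mu p)) 1) := by
  have := hF.smooth
  have := hF.finite
  have := C.coefMu.smooth
  have : Smooth (lvlS S) (HomMod F (Mu p)) := smooth_homMod (lvlS S)
  have hsm : ∀ q : Nat.Primes, Smooth (lvlLoc q) (ResMod (ιv q) (HomMod F (Mu p))) := fun q =>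
    smooth_res (ιv q) (lvlS_comap_le_lvlLoc S q)
  have hd : ShortExact (precomp (Mu p) π) (precomp (Mu p) j) :=
    shortExact_dual p (Mu p) h hQ.ptors hF.ptors
  have hdq : ∀ q : Nat.Primes, ShortExact (ResMod.map (ιv q) (precomp (Mu p) π))
      (ResMod.map (ιv q) (precomp (Mu p) j)) := fun q => shortExact_res (ιv q) hd
  have := finite_P2 C hQ
  have := finite_P2 C hF
  have := finite_Y C hQ
  have := finite_Y C hF
  let δloc : (∀ q : ↥S, Hloc q.1 (HomMod Q (Mu p)) 0) →+ (∀ q : ↥S, Hloc q.1 (HomMod M (Mu p)) 1) :=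
    AddMonoidHom.pi fun q => (Hsm.delta (hdq q.1) 0).comp
      (Pi.evalAddMonoidHom (fun q : ↥S => Hloc q.1 (HomMod Q (Mu p)) 0) q)
  have key := card_sha2_eq_card_sha1 (p := p)
    (jH := Hsm.map (𝓝 := lvlS S) j 2) (πH := Hsm.map (𝓝 := lvlS S) π 2)
    (jP := mapAll S j 2) (πP := mapAll S π 2)
    (locQ := locAll S Q 2) (locF := locAll S F 2) (locM := locAll S M 2)
    (loc_j := locAll_map S j 2) (loc_π := locAll_map S π 2)
    (πH_jH := Hsm.map_map_eq_zero h 2)
    (exact_H2F := fun x hx => (Hsm.exact_map_map h 2 x).1 hx)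
    (surj_πH := C.RE F M hF hM π h.surj)
    (sha_kill := fun x hx => hkill x (by rw [← ker_locAll]; exact hx))
    (jZ := Hsm.map (𝓝 := lvlS S) (precomp (Mu p) j) 0)
    (jY := mapAll S (precomp (Mu p) j) 0) (πY := mapAll S (precomp (Mu p) π) 0)
    (ιQ := locAll S (HomMod Q (Mu p)) 0) (ιF := locAll S (HomMod F (Mu p)) 0)
    (ι_j := locAll_map S (precomp (Mu p) j) 0)
    (ιQ_inj := by
      obtain ⟨q, hq⟩ := hS
      intro a b hab
      exact res_zero_injective (ιv q) (lvlS_comap_le_lvlLoc S q) (congrFun hab ⟨q, hq⟩))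
    (jY_πY := fun g => funext fun q => Hsm.map_map_eq_zero (hdq q.1) 0 (g q))
    (exact_YF := fun f hf => by
      have h1 : ∀ q : ↥S, ∃ g, Hsm.map (ResMod.map (ιv q.1) (precomp (Mu p) π)) 0 g = f q :=
        fun q => (Hsm.exact_map_map (hdq q.1) 0 (f q)).1 (congrFun hf q)
      choose g hg using h1
      exact ⟨g, funext hg⟩)
    (BQ := pairAll C Q) (BF := pairAll C F) (BM := pairAll C M)
    (BQ_left := pairAll_left C hQ) (BQ_right := pairAll_right C hQ)
    (BF_left := pairAll_left C hF) (BF_right := pairAll_right C hF)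
    (BM_left := pairAll_left C hM)
    (adj_j := pairAll_adj C j) (adj_π := pairAll_adj C π)
    (PT_Q := pairAll_PT C hQ) (PT_F := pairAll_PT C hF)
    (δ := Hsm.delta hd 0) (δloc := δloc)
    (res := Hsm.map (𝓝 := lvlS S) (precomp (Mu p) π) 1)
    (loc1 := locAll S (HomMod M (Mu p)) 1)
    (ker_δ := fun z => Hsm.exact_map_delta hd 0 z)
    (range_δ := fun x => Hsm.exact_delta_map hd 0 x)
    (ker_δloc := fun f => by
      constructor
      · intro hf
        have h1 : ∀ q : ↥S, ∃ g, Hsm.map (ResMod.map (ιv q.1) (precomp (Mu p) j)) 0 g = f q :=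
          fun q => (Hsm.exact_map_delta (hdq q.1) 0 (f q)).1 (congrFun hf q)
        choose g hg using h1
        exact ⟨g, funext hg⟩
      · rintro ⟨g, rfl⟩
        exact funext fun q => Hsm.delta_map_eq_zero (hdq q.1) 0 (g q))
    (loc_δ := fun z => funext fun q =>
      res_delta (ιv q.1) (lvlS_comap_le_lvlLoc S q.1) hd (hdq q.1) 0 z)
  rw [ker_locAll, ker_locAll] at key
  exact key

end fixed

end Fermat.Agent.S55.Formal
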