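/-
S55 / FORMAL (helper176): **Theorem F1**: the formal contract implies
`|Sha^2_S(M)| = |Sha^1_S(Hom(M, μ_p))| < ∞`.
-/
import Fermat.Agent.S55.Formal.F1Fixed
import Fermat.Agent.S55.Formal.Efface1

set_option autoImplicit false

namespace Fermat.Agent.S55.Formal

variable {S : Finset Nat.Primes} {p : ℕ}

section general

variable {A B : Type} [AddCommGroup A] [DistribMulAction GQ A] [AddCommGroup B]
  [DistribMulAction GQ B]

/-- `Sha` is functorial. -/
theorem map_mem_Sha (φ : A →+[GQ] B) {n : ℕ} {x : Hsm (lvlS S) A n} (hx : x ∈ Sha S A n) :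
    Hsm.map φ n x ∈ Sha S B n := by
  rw [mem_Sha_iff] at hx ⊢
  intro q
  have h1 := res_map (ιv q.1) (lvlS_comap_le_lvlLoc S q.1) φ n x
  change locS S B q.1 n (Hsm.map φ n x) = _ at h1
  rw [h1]
  change Hsm.map _ n (locS S A q.1 n x) = 0
  rw [hx q, map_zero]

end general

section coef

variable {M : Type} [AddCommGroup M] [DistribMulAction GQ M]

theorem finite_quot {U : Subgroup GQ} (hU : U ∈ (lvlS S).carrier) : Finite (GQ ⧸ U) := by
  have := (lvlS S).finiteIndex U hU
  exact Subgroup.finite_quotient_of_finiteIndex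

theorem isCoef_indMod (hM : IsCoef S p M) {U : Subgroup GQ} (hU : U ∈ (lvlS S).carrier) :
    IsCoef S p (IndMod (GQ ⧸ U) M) where
  finite := by
    have := hM.finite
    have := finite_quot hU
    exact Finite.of_equiv _ (IndMod.funEquiv (X := GQ ⧸ U) (A := M)).symm.toEquiv
  ptors := fun f => by
    ext x
    exact hM.ptors (f x)
  smooth := by
    have := hM.smooth
    have := finite_quot hU
    have := SmoothSet.quotient (lvlS S) (LevelSys.isOpen_of_mem hU)
    infer_instance

theorem isCoef_sub {F : Type} [AddCommGroup F] [DistribMulAction GQ F] (hF : IsCoef S p F)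
    (C : GSub GQ F) : IsCoef S p C.Mod where
  finite := by
    have := hF.finite
    exact Finite.of_injective C.incl C.incl_injective
  ptors := fun x => C.incl_injective (by rw [map_nsmul, hF.ptors, map_zero])
  smooth := by
    have := hF.smooth
    infer_instance

theorem shortExact_ker {F : Type} [AddCommGroup F] [DistribMulAction GQ F] (π : F →+[GQ] M)
    (hπ : Function.Surjective π) : ShortExact (GSub.ker π).inclG π where
  inj := (GSub.ker π).inclG_injective
  exact := fun b => by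
    constructor
    · intro hb
      exact ⟨(GSub.ker π).mkMod b hb, rfl⟩
    · rintro ⟨a, rfl⟩
      exact (GSub.ker π).incl_mem a
  surj := hπ

end coef

section limit

variable {M B : Type} [AddCommGroup M] [DistribMulAction GQ M] [AddCommGroup B]
  [DistribMulAction GQ B]

/-- If a class dies at level `U` it dies at every smaller level. -/
theorem map_precomp_sum_mono {U U' : Subgroup GQ} (h : U' ≤ U) [Finite (GQ ⧸ U)]
    [Finite (GQ ⧸ U')] {n : ℕ} {x : Hsm (lvlS S) (HomMod M B) n}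
    (hx : Hsm.map (precomp B (IndMod.sum (GQ ⧸ U) M)) n x = 0) :
    Hsm.map (precomp B (IndMod.sum (GQ ⧸ U') M)) n x = 0 := by
  rw [Hsm.map_comp' (ψ := precomp B (IndMod.push M (quotProj h)))
    (φ := precomp B (IndMod.sum (GQ ⧸ U) M)) (fun u => ?_), hx, map_zero]
  ext f
  rw [precomp_apply, precomp_apply, precomp_apply, sum_push]

/-- If the sum map kills `Sha` at level `U` it does so at every smaller level. -/
theorem sum_kill_mono {U U' : Subgroup GQ} (h : U' ≤ U) [Finite (GQ ⧸ U)]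
    [Finite (GQ ⧸ U')] {n : ℕ}
    (hk : ∀ x ∈ Sha S (IndMod (GQ ⧸ U) M) n, Hsm.map (IndMod.sum (GQ ⧸ U) M) n x = 0) :
    ∀ x ∈ Sha S (IndMod (GQ ⧸ U') M) n, Hsm.map (IndMod.sum (GQ ⧸ U') M) n x = 0 := by
  intro x hx
  rw [Hsm.map_comp' (ψ := IndMod.sum (GQ ⧸ U) M) (φ := IndMod.push M (quotProj h))
    (fun f => (sum_push (quotProj h) f).symm)]
  exact hk _ (map_mem_Sha _ hx)

end limit

/-- **THEOREM F1.** -/
theorem F1 [Fact p.Prime] (hS : S.Nonempty) (C : Contract S p) (M : Type) [AddCommGroup M]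
    [DistribMulAction GQ M] (hM : IsCoef S p M) :
    Finite (Sha S M 2) ∧ Nat.card (Sha S M 2) = Nat.card (Sha S (HomMod M (Mu p)) 1) := by
  obtain ⟨U0, hU0⟩ := (lvlS S).nonempty
  obtain ⟨U1, hU1, -, hfin1, hk1⟩ := C.C4 M hM U0 hU0
  -- the statement at a fixed small level
  have fixed : ∀ U ∈ (lvlS S).carrier, U ≤ U1 → ∀ _ : Finite (GQ ⧸ U),
      Finite (Sha S M 2) ∧ Nat.card (Sha S M 2) =
        Nat.card ↥((Hsm.map (𝓝 := lvlS S) (precomp (Mu p) (IndMod.sum (GQ ⧸ U) M)) 1).ker ⊓
          Sha S (HomMod M (Mu p)) 1) := by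
    intro U hU hle _
    have hF := isCoef_indMod hM hU
    exact card_sha_fixed hS C (isCoef_sub hF _) hF hM
      (shortExact_ker (IndMod.sum (GQ ⧸ U) M) sum_surjective) (sum_kill_mono hle hk1)
  have hfinSha : Finite (Sha S M 2) := (fixed U1 hU1 le_rfl hfin1).1
  refine ⟨hfinSha, ?_⟩
  let I : Type := {U : Subgroup GQ // U ∈ (lvlS S).carrier ∧ U ≤ U1}
  have : Nonempty I := ⟨⟨U1, hU1, le_rfl⟩⟩
  have hfinI : ∀ U : I, Finite (GQ ⧸ U.1) := fun U => finite_quot U.2.1
  let XL : I → AddSubgroup (Hsm (lvlS S) (HomMod M (Mu p)) 1) := fun U =>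
    (Hsm.map (𝓝 := lvlS S) (precomp (Mu p) (IndMod.sum (GQ ⧸ U.1) M)) 1).ker ⊓
      Sha S (HomMod M (Mu p)) 1
  have hmono : ∀ U U' : I, U'.1 ≤ U.1 → XL U ≤ XL U' := by
    intro U U' hle x hx
    exact ⟨map_precomp_sum_mono hle hx.1, hx.2⟩
  have res := card_eq_of_exhaustion (Sha S (HomMod M (Mu p)) 1) XL (Nat.card (Sha S M 2))
    Nat.card_pos.ne'
    (by
      intro U U'
      obtain ⟨U'', hU'', hle⟩ := (lvlS S).directed U.1 U.2.1 U'.1 U'.2.1
      exact ⟨⟨U'', hU'', (hle.trans inf_le_left).trans U.2.2⟩,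
        hmono _ _ (hle.trans inf_le_left), hmono _ _ (hle.trans inf_le_right)⟩)
    (fun U => ((fixed U.1 U.2.1 U.2.2 (hfinI U)).2).symm)
    (fun U => inf_le_right)
    (by
      intro x hx
      obtain ⟨U, hU, hUx⟩ := exists_map_precomp_sum_eq_zero x
      obtain ⟨U'', hU'', hle⟩ := (lvlS S).directed U hU U1 hU1
      have := finite_quot hU
      have := finite_quot hU''
      exact ⟨⟨U'', hU'', hle.trans inf_le_right⟩,
        map_precomp_sum_mono (hle.trans inf_le_left) (hUx inferInstance), hx⟩)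
  exact res.2.symm

end Fermat.Agent.S55.Formal
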